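/-
Row 37 (S43), block E0, node MAIN (helper281).  THE EXPORT OF E0 IN THE LANGUAGE OF THE KUMMER MODULES.

Level `N = M * q` WRITTEN IN ANY FORM (e.g. `q * M`), `n = p ^ (e + 1)`, `c ∈ W N n`; the `𝔪`-part is
`{c | picHom N n c ∈ VV N p G ev}` (`E0/Inst`).  For `σ ∈ I_A` generating the image of `I_A` on the `𝔪`-part:

* `exact` : `ρ(σ) c = c ⟹ c = ρ(σ) z - z`, `z` in the `𝔪`-part;
* `pure`  : `ρ(σ) (p ^ e c) = p ^ e c ⟹ c = (ρ(σ) z - z) + p z'`.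

Inputs: `Inst.e0J` (design (B): `TowerU`), `orthJ` (the nodes of (ORTH')), (OLD).
-/
import Fermat.Agent.S43.E0.Inst.WIP.Main
import Fermat.Agent.S43.E0.OrthJ
import Fermat.Agent.Lib.InertiaField.Unram

set_option autoImplicit false

noncomputable section

namespace Fermat.Agent.S43.E0.Main

open ModularCurve AlgebraicCurve Fermat.Agent.S24 Fermat.Agent.S19.Weil Fermat.Agent.S15
  Fermat.Agent.S15.Pair Fermat.Agent.C1 Fermat.Agent.S17.W Fermat.Agent.S43.Free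
  Fermat.Agent.S33.Mid Fermat.Agent.GAL.E Fermat.Agent.S43.E0.Inst Fermat.Agent.S15.LocN

/-- the nodes of (ORTH') -/
structure Nodes : Prop where
  jGal : NodeJGal
  jHecke : NodeJHecke
  pull : NodePull
  unitRep : NodeUnitRep
  orthL : NodeOrthL

variable {M q : ℕ} [NeZero M] [NeZero q]

/-- a toric class in the sense of `Inst.YJ` is toric in the sense of `S15.LocN.IsTorJ`. -/
theorem isTorJ_of_mem_YJ {D : ALData M q} {A : ValuationSubring Kbar} (hq : q.Prime)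
    (hA : A.LiesOverPrime q) {n : ℕ} [NeZero n] {y : JZero (M * q)} (hy : y ∈ YJ D A n) :
    IsTorJ D A n y := by
  obtain ⟨c, hc, rfl⟩ := hy
  obtain ⟨u, rfl, h1, h2⟩ := isTor_of_mem_Ktor D hq hA hc
  obtain ⟨a, ha⟩ := exists_torsRep_cls (L := FN (M * q)) (NeZero.pos n) u
  exact ⟨a, by rw [ha]; exact h1, by rw [ha]; exact h2⟩

theorem iterate_fixed {X : Type*} (f : X → X) {x : X} (h : f x = x) (j : ℕ) : (f^[j]) x = x :=
  Function.iterate_fixed h j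

/-- **(ORTH')** in the shape of `Inst.Orth`, from the nodes and the generation hypothesis. -/
theorem orth (H : Nodes) {p : ℕ} [NeZero p] (hq : q.Prime) (hq2 : q ≠ 2) (hqM : ¬ q ∣ M)
    (D : ALData M q) (A : ValuationSubring Kbar) (hA : A.LiesOverPrime q) (hp : p.Prime)
    (h5 : 5 ≤ p) (hpq : p ≠ q) (G : ℕ → Prop) (ev : ℕ → ℤ)
    {ℓ : ℕ} (hℓ : ℓ.Prime) (hℓN : ¬ ℓ ∣ M * q * p) (hℓG : G ℓ) (hℓ2 : ℓ ≠ 2)
    (hEis : ¬ (p : ℤ) ∣ (ℓ : ℤ) + 1 - ev ℓ)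
    (e : ℕ) (σ : S15.GQ)
    (hI : ∀ τ ∈ A.inertiaSubgroupIn ℚ, ∃ j : ℕ, ∀ c : W (M * q) (p ^ (e + 1)),
      picHom (M * q) (p ^ (e + 1)) c ∈ VV (M * q) p G ev →
        rho (M * q) (p ^ (e + 1)) τ c = ((rho (M * q) (p ^ (e + 1)) σ)^[j]) c) :
    Orth D A p G ev σ := by
  intro x hxV hpx hσx y _ hyY
  have : NeZero ℓ := ⟨hℓ.ne_zero⟩
  have := Fermat.Agent.Lib.InertiaField.isDiscreteValuationRing_A0 A q hq hA
  have hx1 : x ∈ tors (M * q) (p ^ (e + 1)) := by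
    rw [mem_tors, pow_succ, mul_nsmul', hpx, nsmul_zero]
  obtain ⟨c, rfl⟩ := exists_picHom_eq (M * q) (p ^ (e + 1)) hx1
  have hσc : rho (M * q) (p ^ (e + 1)) σ c = c := by
    apply picHom_injective (M * q) (p ^ (e + 1))
    rw [picHom_rho, hσx]
  refine orthJ H.jGal H.jHecke H.pull H.unitRep H.orthL hq hq2 hqM D A hA hp h5 hpq hℓ ?_ (ev ℓ) hEis
    hpx ?_ ?_ (isTorJ_of_mem_YJ hq hA hyY)
  · intro h
    have h1 : ℓ ∣ M * q * 4 := by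
      have e1 : M * q * 4 = M * 4 * q := by ring
      rw [e1]; exact h
    rcases (Nat.Prime.dvd_mul hℓ).1 h1 with h2 | h2
    · exact hℓN (h2.mul_right p)
    · have h3 : ℓ ∣ 2 ^ 2 := by norm_num; exact h2
      exact hℓ2 ((Nat.prime_dvd_prime_iff_eq hℓ Nat.prime_two).1 (hℓ.dvd_of_dvd_pow h3))
  · intro τ hτ
    obtain ⟨j, hj⟩ := hI τ hτ
    rw [← picHom_rho, hj c hxV, iterate_fixed _ hσc]
  · exact hxV.2 ⟨ℓ, hℓ, hℓN, hℓG⟩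

/-- **E0, level `M * q`.** -/
theorem main_mul (H : Nodes) (hT : NodalTarget) {p : ℕ} [NeZero p] (hq : q.Prime) (hq2 : q ≠ 2)
    (hqM : ¬ q ∣ M) (A : ValuationSubring Kbar) (hA : A.LiesOverPrime q) (hp : p.Prime)
    (h5 : 5 ≤ p) (hpq : p ≠ q) (G : ℕ → Prop) (ev : ℕ → ℤ)
    (hold : ∀ D : ALData M q, Old D p G ev)
    {ℓ : ℕ} (hℓ : ℓ.Prime) (hℓN : ¬ ℓ ∣ M * q * p) (hℓG : G ℓ) (hℓ2 : ℓ ≠ 2)
    (hEis : ¬ (p : ℤ) ∣ (ℓ : ℤ) + 1 - ev ℓ)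
    (e : ℕ) (σ : S15.GQ) (hσ : σ ∈ A.inertiaSubgroupIn ℚ)
    (hI : ∀ τ ∈ A.inertiaSubgroupIn ℚ, ∃ j : ℕ, ∀ c : W (M * q) (p ^ (e + 1)),
      picHom (M * q) (p ^ (e + 1)) c ∈ VV (M * q) p G ev →
        rho (M * q) (p ^ (e + 1)) τ c = ((rho (M * q) (p ^ (e + 1)) σ)^[j]) c) :
    (∀ c : W (M * q) (p ^ (e + 1)), picHom (M * q) (p ^ (e + 1)) c ∈ VV (M * q) p G ev →
      rho (M * q) (p ^ (e + 1)) σ c = c →
      ∃ z : W (M * q) (p ^ (e + 1)), picHom (M * q) (p ^ (e + 1)) z ∈ VV (M * q) p G ev ∧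
        c = rho (M * q) (p ^ (e + 1)) σ z - z) ∧
    (∀ c : W (M * q) (p ^ (e + 1)), picHom (M * q) (p ^ (e + 1)) c ∈ VV (M * q) p G ev →
      rho (M * q) (p ^ (e + 1)) σ (p ^ e • c) = p ^ e • c →
      ∃ z z' : W (M * q) (p ^ (e + 1)), picHom (M * q) (p ^ (e + 1)) z ∈ VV (M * q) p G ev ∧
        picHom (M * q) (p ^ (e + 1)) z' ∈ VV (M * q) p G ev ∧
        c = (rho (M * q) (p ^ (e + 1)) σ z - z) + p • z') := by
  obtain ⟨D⟩ := C1.nonempty_alData M q hq hqM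
  have horth := orth H hq hq2 hqM D A hA hp h5 hpq G ev hℓ hℓN hℓG hℓ2 hEis e σ hI
  have h1 := (e0J D A p G ev hT hp hq hqM hpq.symm hA (hold D) σ hσ horth (e + 1)).1
  have h2 := (e0J D A p G ev hT hp hq hqM hpq.symm hA (hold D) σ hσ horth e).2.2
  constructor
  · intro c hc hσc
    obtain ⟨z, hzV, hz0, hz⟩ := h1 _ hc (picHom_mem_tors (M * q) (p ^ (e + 1)) c)
      (by rw [← picHom_rho, hσc])
    obtain ⟨z₀, rfl⟩ := exists_picHom_eq (M * q) (p ^ (e + 1)) (mem_tors.2 hz0)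
    refine ⟨z₀, hzV, picHom_injective (M * q) (p ^ (e + 1)) ?_⟩
    rw [map_sub, picHom_rho, hz]
  · intro c hc hσc
    obtain ⟨z, hzV, z', hzV', hz0, hz0', hz⟩ := h2 _ hc (picHom_mem_tors (M * q) (p ^ (e + 1)) c)
      (by rw [← map_nsmul, ← picHom_rho, hσc])
    obtain ⟨z₀, rfl⟩ := exists_picHom_eq (M * q) (p ^ (e + 1)) (mem_tors.2 hz0)
    obtain ⟨z₁, rfl⟩ := exists_picHom_eq (M * q) (p ^ (e + 1)) (mem_tors.2 hz0')
    refine ⟨z₀, z₁, hzV, hzV', picHom_injective (M * q) (p ^ (e + 1)) ?_⟩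
    rw [map_add, map_sub, picHom_rho, map_nsmul, hz]

/-- **E0, level `N = M * q` written in any form.** -/
theorem main (H : Nodes) (hT : NodalTarget) {N p : ℕ} [NeZero N] [NeZero p] (hN : N = M * q)
    (hq : q.Prime) (hq2 : q ≠ 2)
    (hqM : ¬ q ∣ M) (A : ValuationSubring Kbar) (hA : A.LiesOverPrime q) (hp : p.Prime)
    (h5 : 5 ≤ p) (hpq : p ≠ q) (G : ℕ → Prop) (ev : ℕ → ℤ)
    (hold : ∀ D : ALData M q, Old D p G ev)
    {ℓ : ℕ} (hℓ : ℓ.Prime) (hℓN : ¬ ℓ ∣ N * p) (hℓG : G ℓ) (hℓ2 : ℓ ≠ 2)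
    (hEis : ¬ (p : ℤ) ∣ (ℓ : ℤ) + 1 - ev ℓ)
    (e : ℕ) (σ : S15.GQ) (hσ : σ ∈ A.inertiaSubgroupIn ℚ)
    (hI : ∀ τ ∈ A.inertiaSubgroupIn ℚ, ∃ j : ℕ, ∀ c : W N (p ^ (e + 1)),
      picHom N (p ^ (e + 1)) c ∈ VV N p G ev →
        rho N (p ^ (e + 1)) τ c = ((rho N (p ^ (e + 1)) σ)^[j]) c) :
    (∀ c : W N (p ^ (e + 1)), picHom N (p ^ (e + 1)) c ∈ VV N p G ev →
      rho N (p ^ (e + 1)) σ c = c →
      ∃ z : W N (p ^ (e + 1)), picHom N (p ^ (e + 1)) z ∈ VV N p G ev ∧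
        c = rho N (p ^ (e + 1)) σ z - z) ∧
    (∀ c : W N (p ^ (e + 1)), picHom N (p ^ (e + 1)) c ∈ VV N p G ev →
      rho N (p ^ (e + 1)) σ (p ^ e • c) = p ^ e • c →
      ∃ z z' : W N (p ^ (e + 1)), picHom N (p ^ (e + 1)) z ∈ VV N p G ev ∧
        picHom N (p ^ (e + 1)) z' ∈ VV N p G ev ∧
        c = (rho N (p ^ (e + 1)) σ z - z) + p • z') := by
  subst hN
  exact main_mul H hT hq hq2 hqM A hA hp h5 hpq G ev hold hℓ hℓN hℓG hℓ2 hEis e σ hσ hI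

end Fermat.Agent.S43.E0.Main

end
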